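import Mathlib

/-!
# `k⟦X₁, …, Xₙ⟧` is a unique factorization domain (`k` an infinite field)

Via the Weierstrass preparation theorem.
-/

set_option autoImplicit false

namespace Fermat.Agent.S26ufd

open IsLocalRing

section Weierstrass

open Polynomial

variable {R : Type*} [CommRing R] [IsDomain R] [IsLocalRing R]

omit [IsDomain R] in
/-- A monic divisor of a distinguished polynomial is distinguished. -/
theorem isDistinguishedAt_of_mul {F G H : R[X]} (hF : F.IsDistinguishedAt (maximalIdeal R))
    (hG : G.Monic) (h : F = G * H) : G.IsDistinguishedAt (maximalIdeal R) := by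
  have hmap : F.map (residue R) = X ^ F.natDegree := by
    ext i
    rw [coeff_map, coeff_X_pow]
    rcases lt_trichotomy i F.natDegree with hi | hi | hi
    · rw [if_neg hi.ne]
      exact (residue_eq_zero_iff _).mpr (hF.mem hi)
    · rw [if_pos hi, hi, hF.monic.coeff_natDegree, map_one]
    · rw [if_neg hi.ne', coeff_eq_zero_of_natDegree_lt hi, map_zero]
  have hdvd : G.map (residue R) ∣ X ^ F.natDegree := by
    rw [← hmap, h, Polynomial.map_mul]
    exact dvd_mul_right _ _
  obtain ⟨i, hi, hassoc⟩ := (dvd_prime_pow Polynomial.prime_X _).mp hdvd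
  have heq : G.map (residue R) = X ^ i :=
    Polynomial.eq_of_monic_of_associated (hG.map _) (monic_X_pow i) hassoc
  have hdeg : i = G.natDegree := by
    rw [← hG.natDegree_map (residue R), heq, natDegree_X_pow]
  refine ⟨⟨fun {n} hn => ?_⟩, hG⟩
  rw [← residue_eq_zero_iff, ← coeff_map, heq, coeff_X_pow, if_neg (by omega)]

variable [IsAdicComplete (maximalIdeal R) R]

omit [IsDomain R] in
theorem prime_coe_of_isDistinguishedAt {F : R[X]} (hF : F.IsDistinguishedAt (maximalIdeal R))
    (hp : Prime F) : Prime (F : PowerSeries R) := by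
  have hW : (F : PowerSeries R).IsWeierstrassFactorizationAt F 1 (maximalIdeal R) :=
    ⟨hF, isUnit_one, by simp⟩
  have hne : (F : PowerSeries R) ≠ 0 := by
    intro h0
    exact hp.ne_zero (by exact_mod_cast h0)
  rw [← Ideal.span_singleton_prime hne, ← Ideal.Quotient.isDomain_iff_prime]
  have hd : IsDomain (R[X] ⧸ Ideal.span {F}) := by
    rw [Ideal.Quotient.isDomain_iff_prime, Ideal.span_singleton_prime hp.ne_zero]
    exact hp
  exact hW.algEquivQuotient.symm.toMulEquiv.isDomain _

theorem exists_prime_factors_of_distinguished [UniqueFactorizationMonoid R] {F : R[X]}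
    (hF : F.IsDistinguishedAt (maximalIdeal R)) :
    ∃ s : Multiset (PowerSeries R), (∀ b ∈ s, Prime b) ∧ Associated s.prod (F : PowerSeries R) := by
  obtain ⟨s, hs, hassoc⟩ := UniqueFactorizationMonoid.exists_prime_factors F hF.monic.ne_zero
  refine ⟨s.map (Polynomial.coeToPowerSeries.ringHom (R := R)), ?_, ?_⟩
  · intro b hb
    obtain ⟨p, hp, rfl⟩ := Multiset.mem_map.mp hb
    have hpdvd : p ∣ F := (Multiset.dvd_prod hp).trans hassoc.dvd
    obtain ⟨q, hq⟩ := hpdvd
    have hlc : IsUnit p.leadingCoeff := by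
      have := congrArg leadingCoeff hq
      rw [hF.monic.leadingCoeff, leadingCoeff_mul] at this
      exact IsUnit.of_mul_eq_one _ this.symm
    obtain ⟨u, hu⟩ := hlc
    set p' : R[X] := C (↑u⁻¹ : R) * p with hp'
    have hp'monic : p'.Monic := by
      rw [Monic, hp', leadingCoeff_mul, leadingCoeff_C, ← hu, Units.inv_mul]
    have hpp' : p = C (u : R) * p' := by
      rw [hp', ← mul_assoc, ← C_mul, Units.mul_inv, C_1, one_mul]
    have hassoc' : Associated p' p := by
      refine ⟨Units.map (C : R →+* R[X]).toMonoidHom u, ?_⟩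
      rw [hpp']
      simp [mul_comm]
    have hprime' : Prime p' := hassoc'.symm.prime (hs p hp)
    have hdist : p'.IsDistinguishedAt (maximalIdeal R) :=
      isDistinguishedAt_of_mul (H := C (u : R) * q) hF hp'monic (by rw [hq]; rw [hpp']; ring)
    have h1 := prime_coe_of_isDistinguishedAt hdist hprime'
    have h2 : Associated ((Polynomial.coeToPowerSeries.ringHom (R := R)) p')
        ((Polynomial.coeToPowerSeries.ringHom (R := R)) p) :=
      hassoc'.map (Polynomial.coeToPowerSeries.ringHom (R := R))
    exact h2.prime h1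
  · have := hassoc.map (Polynomial.coeToPowerSeries.ringHom (R := R))
    rwa [map_multiset_prod] at this

theorem exists_prime_factors_of_map_residue_ne_zero [UniqueFactorizationMonoid R]
    {f : PowerSeries R} (hf : PowerSeries.map (residue R) f ≠ 0) :
    ∃ s : Multiset (PowerSeries R), (∀ b ∈ s, Prime b) ∧ Associated s.prod f := by
  obtain ⟨F, h, hW⟩ := PowerSeries.exists_isWeierstrassFactorization hf
  obtain ⟨s, hs, hassoc⟩ := exists_prime_factors_of_distinguished hW.isDistinguishedAt
  refine ⟨s, hs, hassoc.trans ?_⟩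
  obtain ⟨u, hu⟩ := hW.isUnit
  exact ⟨u, by rw [hu, ← hW.eq_mul]⟩

end Weierstrass


section Coord

open MvPowerSeries

variable {k : Type*} [Field k] {n : ℕ}

/-- restriction to the `X₀`-axis -/
noncomputable def axis (k : Type*) [Field k] (n : ℕ) : MvPowerSeries (Fin (n + 1)) k →+* PowerSeries k :=
  (PowerSeries.map (constantCoeff (σ := Fin n) (R := k))).comp
    (finSuccEquiv k n).toRingEquiv.toRingHom

theorem coeff_axis (p : MvPowerSeries (Fin (n + 1)) k) (N : ℕ) :
    PowerSeries.coeff N (axis k n p) = coeff (Finsupp.single 0 N) p := by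
  have h := coeff_coeff_finSuccEquiv p (k := N) (x := 0)
  rw [show Finsupp.cons N (0 : Fin n →₀ ℕ) = Finsupp.single 0 N from by
    ext i; refine Fin.cases ?_ (fun j => ?_) i <;> simp [Fin.succ_ne_zero]] at h
  rw [← h]
  simp [axis]

/-- the coordinate change `X₀ ↦ X₀`, `X_{j+1} ↦ X_{j+1} + c_j X₀`. -/
noncomputable def coordFun (c : Fin n → k) : Fin (n + 1) → MvPowerSeries (Fin (n + 1)) k :=
  Fin.cons (X 0) (fun j => X j.succ + C (c j) * X 0)

theorem hasSubst_coordFun (c : Fin n → k) : HasSubst (coordFun c) := by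
  apply hasSubst_of_constantCoeff_zero
  intro s
  refine Fin.cases ?_ (fun j => ?_) s
  · simp [coordFun]
  · simp [coordFun]

theorem subst_C' {a : Fin (n + 1) → MvPowerSeries (Fin (n + 1)) k} (ha : HasSubst a) (r : k) :
    subst a (C r : MvPowerSeries (Fin (n + 1)) k) = C r := by
  rw [← coe_substAlgHom ha]
  exact (substAlgHom ha).commutes r

theorem subst_coordFun_neg (c : Fin n → k) (f : MvPowerSeries (Fin (n + 1)) k) :
    subst (coordFun (-c)) (subst (coordFun c) f) = f := by
  rw [subst_comp_subst_apply (hasSubst_coordFun c) (hasSubst_coordFun (-c))]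
  have : (fun s => subst (coordFun (-c)) (coordFun c s)) = (X : Fin (n+1) → MvPowerSeries (Fin (n + 1)) k) := by
    funext s
    refine Fin.cases ?_ (fun j => ?_) s
    · have h := hasSubst_coordFun (-c)
      have h0 : coordFun c 0 = X 0 := rfl
      rw [h0, subst_X h]
      rfl
    · have h := hasSubst_coordFun (-c)
      have h0 : coordFun c j.succ = X j.succ + C (c j) * X 0 := rfl
      have h1 : coordFun (-c) j.succ = X j.succ + C (-c j) * X 0 := rfl
      have h2 : coordFun (-c) 0 = X 0 := rfl
      rw [h0, subst_add h, subst_mul h, subst_X h, subst_X h, subst_C' h, h1, h2]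
      simp
  rw [this]
  exact congrFun subst_self f

/-- the coordinate change automorphism -/
noncomputable def coordEquiv (c : Fin n → k) :
    MvPowerSeries (Fin (n + 1)) k ≃* MvPowerSeries (Fin (n + 1)) k where
  toFun := subst (coordFun c)
  invFun := subst (coordFun (-c))
  left_inv := subst_coordFun_neg c
  right_inv f := by
    have := subst_coordFun_neg (-c) f
    rwa [neg_neg] at this
  map_mul' f g := subst_mul (hasSubst_coordFun c) f g

/-- direction vector `(1, c)` -/
def dir (c : Fin n → k) : Fin (n + 1) → k := Fin.cons 1 c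

theorem axis_coordFun (c : Fin n → k) (s : Fin (n + 1)) :
    axis k n (coordFun c s) = PowerSeries.C (dir c s) * PowerSeries.X := by
  refine Fin.cases ?_ (fun j => ?_) s
  · simp [axis, coordFun, dir]
  · simp [axis, coordFun, dir]

theorem coeff_single_prod (c : Fin n → k) (d : Fin (n + 1) →₀ ℕ) (N : ℕ) :
    coeff (Finsupp.single 0 N) (d.prod fun s e => coordFun c s ^ e) =
      if N = d.degree then (d.prod fun s e => (dir c s) ^ e) else 0 := by
  rw [← coeff_axis, map_finsuppProd]
  have : (d.prod fun s e => axis k n (coordFun c s ^ e)) =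
      PowerSeries.C (d.prod fun s e => (dir c s) ^ e) * PowerSeries.X ^ d.degree := by
    simp only [map_pow, axis_coordFun, mul_pow]
    rw [Finsupp.prod_mul, map_finsuppProd]
    congr 1
    · simp
    · rw [Finsupp.prod, Finset.prod_pow_eq_pow_sum]
      rfl
  rw [this, PowerSeries.coeff_C_mul, PowerSeries.coeff_X_pow]
  split_ifs <;> simp

/-- homogeneous part of degree `N` -/
noncomputable def homPart (f : MvPowerSeries (Fin (n + 1)) k) (N : ℕ) : MvPolynomial (Fin (n + 1)) k :=
  ∑ d ∈ Finset.finsuppAntidiag Finset.univ N, MvPolynomial.monomial d (coeff d f)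

theorem mem_antidiag {N : ℕ} {d : Fin (n + 1) →₀ ℕ} :
    d ∈ Finset.finsuppAntidiag (Finset.univ : Finset (Fin (n + 1))) N ↔ d.degree = N := by
  rw [Finset.mem_finsuppAntidiag]
  simp only [Finset.subset_univ, and_true]
  rw [Finsupp.degree_eq_sum]

theorem eval_homPart (f : MvPowerSeries (Fin (n + 1)) k) (N : ℕ) (x : Fin (n + 1) → k) :
    MvPolynomial.eval x (homPart f N) = ∑ d ∈ Finset.finsuppAntidiag Finset.univ N,
      coeff d f * d.prod fun s e => x s ^ e := by
  simp [homPart, MvPolynomial.eval_monomial]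

theorem coeff_subst_coord (c : Fin n → k) (f : MvPowerSeries (Fin (n + 1)) k) (N : ℕ) :
    coeff (Finsupp.single 0 N) (subst (coordFun c) f) =
      MvPolynomial.eval (dir c) (homPart f N) := by
  rw [coeff_subst (hasSubst_coordFun c), eval_homPart, finsum_eq_sum_of_support_subset]
  · refine Finset.sum_congr rfl fun d hd => ?_
    rw [coeff_single_prod, if_pos (mem_antidiag.mp hd).symm, smul_eq_mul]
  · intro d hd
    rw [Finset.mem_coe, mem_antidiag]
    by_contra hne
    apply hd
    simp only
    rw [coeff_single_prod, if_neg (fun h => hne h.symm), smul_zero]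

theorem homPart_ne_zero {f : MvPowerSeries (Fin (n + 1)) k} (hf : f ≠ 0) :
    ∃ N, homPart f N ≠ 0 := by
  obtain ⟨d, hd⟩ : ∃ d, coeff d f ≠ 0 := by
    by_contra! h
    exact hf (MvPowerSeries.ext h)
  refine ⟨d.degree, fun h0 => hd ?_⟩
  have := congrArg (MvPolynomial.coeff d) h0
  rw [homPart, MvPolynomial.coeff_sum, MvPolynomial.coeff_zero] at this
  rw [← this]
  simp only [MvPolynomial.coeff_monomial]
  rw [Finset.sum_ite_eq' , if_pos (mem_antidiag.mpr rfl)]

theorem eval_homPart_smul (f : MvPowerSeries (Fin (n + 1)) k) (N : ℕ) (t : k)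
    (x : Fin (n + 1) → k) :
    MvPolynomial.eval (t • x) (homPart f N) = t ^ N * MvPolynomial.eval x (homPart f N) := by
  rw [eval_homPart, eval_homPart, Finset.mul_sum]
  refine Finset.sum_congr rfl fun d hd => ?_
  have : (d.prod fun s e => (t • x) s ^ e) = t ^ N * d.prod fun s e => x s ^ e := by
    simp only [Pi.smul_apply, smul_eq_mul, mul_pow]
    rw [Finsupp.prod_mul]
    congr 1
    rw [Finsupp.prod, Finset.prod_pow_eq_pow_sum, ← mem_antidiag.mp hd]
    rfl
  rw [this]; ring

theorem exists_coord [Infinite k] {f : MvPowerSeries (Fin (n + 1)) k} (hf : f ≠ 0) :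
    ∃ c : Fin n → k, axis k n (subst (coordFun c) f) ≠ 0 := by
  obtain ⟨N, hN⟩ := homPart_ne_zero hf
  have h1 : homPart f N * MvPolynomial.X 0 ≠ 0 := mul_ne_zero hN (MvPolynomial.X_ne_zero 0)
  obtain ⟨x, hx⟩ : ∃ x, MvPolynomial.eval x (homPart f N * MvPolynomial.X 0) ≠ 0 := by
    by_contra! h
    exact h1 (MvPolynomial.funext fun x => by simpa using h x)
  rw [map_mul, MvPolynomial.eval_X, mul_ne_zero_iff] at hx
  obtain ⟨hx1, hx0⟩ := hx
  refine ⟨fun j => (x 0)⁻¹ * x j.succ, fun h0 => ?_⟩
  have h2 := congrArg (PowerSeries.coeff N) h0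
  rw [coeff_axis, coeff_subst_coord] at h2
  have h3 : (dir (fun j => (x 0)⁻¹ * x j.succ) : Fin (n + 1) → k) = (x 0)⁻¹ • x := by
    funext s
    refine Fin.cases ?_ (fun j => ?_) s
    · simp [dir, hx0]
    · simp [dir]
  rw [h3, eval_homPart_smul, map_zero] at h2
  exact mul_ne_zero (pow_ne_zero _ (_root_.inv_ne_zero hx0)) hx1 h2

theorem mem_span_range_X (n : ℕ) (f : MvPowerSeries (Fin n) k) (hf : constantCoeff f = 0) :
    f ∈ Ideal.span (Set.range (X : Fin n → MvPowerSeries (Fin n) k)) := by
  induction n with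
  | zero =>
    have : f = 0 := by
      apply (isEmptyEquiv (Fin 0) k).injective
      rw [map_zero]
      exact hf
    rw [this]
    exact Ideal.zero_mem _
  | succ n ih =>
    set g := finSuccEquiv k n f with hg
    have h0 : constantCoeff (PowerSeries.coeff 0 g) = 0 := by
      have := coeff_coeff_finSuccEquiv f (k := 0) (x := 0)
      rw [show Finsupp.cons 0 (0 : Fin n →₀ ℕ) = 0 from by
        ext i; refine Fin.cases ?_ (fun j => ?_) i <;> simp] at this
      rw [← hg] at this
      exact this.trans hf
    have h1 := ih _ h0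
    have h2 := PowerSeries.eq_X_mul_shift_add_const g
    have h3 : f = X 0 * (finSuccEquiv k n).symm (PowerSeries.mk fun p => PowerSeries.coeff (p + 1) g)
        + (finSuccEquiv k n).symm (PowerSeries.C (PowerSeries.coeff 0 g)) := by
      apply (finSuccEquiv k n).injective
      rw [map_add, map_mul, AlgEquiv.apply_symm_apply, AlgEquiv.apply_symm_apply,
        finSuccEquiv_X_zero, ← hg]
      conv_lhs => rw [h2]
      simp
    rw [h3]
    refine Ideal.add_mem _ (Ideal.mul_mem_right _ _ (Ideal.subset_span ⟨0, rfl⟩)) ?_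
    have h4 := Ideal.mem_map_of_mem ((finSuccEquiv k n).symm.toRingEquiv.toRingHom.comp
      (PowerSeries.C (R := MvPowerSeries (Fin n) k))) h1
    rw [Ideal.map_span] at h4
    refine Ideal.span_mono ?_ h4
    rintro _ ⟨_, ⟨j, rfl⟩, rfl⟩
    refine ⟨j.succ, ?_⟩
    apply (finSuccEquiv k n).injective
    simp

theorem maximalIdeal_eq (n : ℕ) : maximalIdeal (MvPowerSeries (Fin n) k) =
    Ideal.span (Set.range (X : Fin n → MvPowerSeries (Fin n) k)) := by
  apply le_antisymm
  · intro f hf
    apply mem_span_range_X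
    by_contra h
    exact (mem_maximalIdeal _).mp hf (isUnit_iff_constantCoeff.mpr (isUnit_iff_ne_zero.mpr h))
  · rw [Ideal.span_le]
    rintro _ ⟨j, rfl⟩
    rw [SetLike.mem_coe, mem_maximalIdeal, mem_nonunits_iff, isUnit_iff_constantCoeff]
    simp

instance isAdicComplete_maximalIdeal (n : ℕ) :
    IsAdicComplete (maximalIdeal (MvPowerSeries (Fin n) k)) (MvPowerSeries (Fin n) k) := by
  rw [maximalIdeal_eq]
  infer_instance

theorem map_residue_ne_zero {f : MvPowerSeries (Fin (n + 1)) k} (h : axis k n f ≠ 0) :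
    PowerSeries.map (residue (MvPowerSeries (Fin n) k)) (finSuccEquiv k n f) ≠ 0 := by
  intro h0
  apply h
  ext N
  have h1 := congrArg (PowerSeries.coeff N) h0
  rw [PowerSeries.coeff_map, map_zero, residue_eq_zero_iff, mem_maximalIdeal, mem_nonunits_iff,
    isUnit_iff_constantCoeff, isUnit_iff_ne_zero, not_not] at h1
  rw [map_zero, ← h1]
  simp [axis]

theorem ufd_mvPowerSeries [Infinite k] (n : ℕ) :
    UniqueFactorizationMonoid (MvPowerSeries (Fin n) k) := by
  induction n with
  | zero =>
    exact (isEmptyEquiv (Fin 0) k).symm.toMulEquiv.uniqueFactorizationMonoid inferInstance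
  | succ n ih =>
    have : IsDomain (MvPowerSeries (Fin n) k) := NoZeroDivisors.to_isDomain _
    apply UniqueFactorizationMonoid.of_exists_prime_factors
    intro f hf
    obtain ⟨c, hc⟩ := exists_coord hf
    obtain ⟨s, hs, hassoc⟩ := exists_prime_factors_of_map_residue_ne_zero (map_residue_ne_zero hc)
    let e : MvPowerSeries (Fin (n + 1)) k ≃* PowerSeries (MvPowerSeries (Fin n) k) :=
      (coordEquiv c).trans (finSuccEquiv k n).toMulEquiv
    refine ⟨s.map e.symm, ?_, ?_⟩
    · intro b hb
      obtain ⟨p, hp, rfl⟩ := Multiset.mem_map.mp hb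
      exact (MulEquiv.prime_iff e.symm).mpr (hs p hp)
    · have h1 : Associated (e.symm s.prod) (e.symm (e f)) := hassoc.map e.symm
      rw [MulEquiv.symm_apply_apply, map_multiset_prod] at h1
      exact h1

end Coord

end Fermat.Agent.S26ufd
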