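import Mathlib
import Fermat.Agent.S26.PowerSeriesUFD

/-!
# Local rings of smooth algebras over an algebraically closed field are UFDs
-/

set_option autoImplicit false

namespace Fermat.Agent.S26ufd

open IsLocalRing

section Descent

variable {O S : Type*} [CommRing O] [CommRing S] [Algebra O S] [Module.FaithfullyFlat O S]

theorem algebraMap_injective_of_faithfullyFlat : Function.Injective (algebraMap O S) :=
  FaithfulSMul.algebraMap_injective O S

theorem isDomain_of_faithfullyFlat [IsDomain S] : IsDomain O :=
  (algebraMap_injective_of_faithfullyFlat (O := O) (S := S)).isDomain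

/-- If `O → S` is faithfully flat, `S` a local UFD, `O` noetherian, then `O` is a UFD. -/
theorem ufd_of_faithfullyFlat [IsDomain S] [IsLocalRing S] [UniqueFactorizationMonoid S]
    [IsDomain O] [IsNoetherianRing O] : UniqueFactorizationMonoid O := by
  have hinj := algebraMap_injective_of_faithfullyFlat (O := O) (S := S)
  refine ⟨fun {p} => ⟨fun hp => ?_, Prime.irreducible⟩⟩
  refine ⟨hp.ne_zero, hp.not_isUnit, fun a b hab => ?_⟩
  by_cases ha : a = 0
  · exact Or.inl (ha ▸ dvd_zero p)
  have hp0 : algebraMap O S p ≠ 0 := fun h => hp.ne_zero (hinj (by rw [h, map_zero]))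
  have ha0 : algebraMap O S a ≠ 0 := fun h => ha (hinj (by rw [h, map_zero]))
  obtain ⟨p', a', c', hrel, hp', ha'⟩ :=
    UniqueFactorizationMonoid.exists_reduced_factors (algebraMap O S p) hp0 (algebraMap O S a)
  have hc0 : c' ≠ 0 := by rintro rfl; exact hp0 (by rw [← hp', zero_mul])
  have hp'0 : p' ≠ 0 := by rintro rfl; exact hp0 (by rw [← hp', mul_zero])
  -- elements of the colon ideal are divisible by `p'` upstairs
  have key : ∀ x : O, p ∣ x * a → p' ∣ algebraMap O S x := by
    intro x hx
    obtain ⟨y, hy⟩ := hx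
    have h1 : c' * (algebraMap O S x * a') = c' * (p' * algebraMap O S y) := by
      have := congrArg (algebraMap O S) hy
      rw [map_mul, map_mul, ← ha', ← hp'] at this
      linear_combination this
    have h2 := mul_left_cancel₀ hc0 h1
    exact IsRelPrime.dvd_of_dvd_mul_right hrel ⟨_, h2⟩
  -- the relation
  have hsum : ∑ i : Fin 2, (![a, p] : Fin 2 → O) i • (![p', -a'] : Fin 2 → S) i = 0 := by
    simp only [Fin.sum_univ_two, Matrix.cons_val_zero, Matrix.cons_val_one, Algebra.smul_def]
    rw [← ha', ← hp']
    ring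
  obtain ⟨k, A, y, hx, hA⟩ := Module.Flat.isTrivialRelation_of_sum_smul_eq_zero (R := O) (M := S) hsum
  have hx0 : p' = ∑ j, A 0 j • y j := hx 0
  have hI : ∀ j, p ∣ A 0 j * a := by
    intro j
    have := hA j
    simp only [Fin.sum_univ_two, Matrix.cons_val_zero, Matrix.cons_val_one] at this
    exact ⟨-A 1 j, by linear_combination this⟩
  choose t ht using fun j => key _ (hI j)
  have h1 : ∑ j, t j * y j = 1 := by
    apply mul_left_cancel₀ hp'0
    rw [Finset.mul_sum, mul_one]
    conv_rhs => rw [hx0]
    refine Finset.sum_congr rfl fun j _ => ?_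
    rw [Algebra.smul_def, ht]
    ring
  obtain ⟨j, -, hj⟩ : ∃ j ∈ (Finset.univ : Finset (Fin k)), IsUnit (t j * y j) := by
    by_contra! h
    have : ∑ j, t j * y j ∈ maximalIdeal S :=
      Ideal.sum_mem _ fun j hj => (mem_maximalIdeal _).mpr (h j hj)
    rw [h1] at this
    exact (Ideal.ne_top_iff_one _).mp (maximalIdeal.isMaximal S).ne_top this
  have htj : IsUnit (t j) := isUnit_of_mul_isUnit_left hj
  set i := A 0 j with hi
  -- `i` generates the colon ideal
  have hgen : ∀ x : O, p ∣ x * a → i ∣ x := by
    intro x hx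
    have h2 : algebraMap O S i ∣ algebraMap O S x := by
      have h3 : algebraMap O S i ∣ p' := by
        obtain ⟨u, hu⟩ := htj
        refine ⟨↑u⁻¹, ?_⟩
        rw [ht j, ← hu, mul_assoc, Units.mul_inv, mul_one]
      exact h3.trans (key x hx)
    have h4 : x ∈ ((Ideal.span {i} : Ideal O).map (algebraMap O S)).comap (algebraMap O S) := by
      rw [Ideal.mem_comap, Ideal.map_span, Set.image_singleton, Ideal.mem_span_singleton]
      exact h2
    rw [Ideal.comap_map_eq_self_of_faithfullyFlat, Ideal.mem_span_singleton] at h4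
    exact h4
  have hip : i ∣ p := hgen p ⟨a, rfl⟩
  obtain ⟨u, hu⟩ := hip
  rcases hp.isUnit_or_isUnit hu with hunit | hunit
  · left
    obtain ⟨w, hw⟩ := hunit
    have := hI j
    rw [← hi, ← hw] at this
    exact (Units.dvd_mul_left).mp this
  · right
    have hib : i ∣ b := hgen b (by rwa [mul_comm b a])
    rw [hu]
    exact (IsUnit.mul_right_dvd hunit).mpr hib

end Descent

section Smooth

variable (k : Type*) [Field k] (n : ℕ)

open MvPowerSeries

instance flat_mvPowerSeries : Module.Flat (MvPolynomial (Fin n) k) (MvPowerSeries (Fin n) k) := by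
  have : Module.Flat (MvPolynomial (Fin n) k) (AdicCompletion (MvPolynomial.idealOfVars (Fin n) k)
    (MvPolynomial (Fin n) k)) := inferInstance
  exact Module.Flat.of_linearEquiv (toAdicCompletionAlgEquiv (Fin n) k).toLinearEquiv

variable {k} {n}

theorem mem_idealOfVars_of_constantCoeff {f : MvPowerSeries (Fin n) k} (hf : constantCoeff f = 0) :
    f ∈ Ideal.span (Set.range (X : Fin n → MvPowerSeries (Fin n) k)) := mem_span_range_X n f hf

/-- The translation automorphism of the polynomial ring. -/
noncomputable def translate (α : Fin n → k) : MvPolynomial (Fin n) k ≃ₐ[k] MvPolynomial (Fin n) k :=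
  AlgEquiv.ofAlgHom (MvPolynomial.aeval fun i => MvPolynomial.X i - MvPolynomial.C (α i))
    (MvPolynomial.aeval fun i => MvPolynomial.X i + MvPolynomial.C (α i))
    (by ext i; simp) (by ext i; simp)

/-- Main statement: the local ring at a rational point of an algebra étale over
`k[X₁, …, Xₙ]` is a UFD (`k` an infinite field). -/
theorem ufd_localization_of_etale [Infinite k] {B : Type*} [CommRing B] [Algebra k B]
    (g : MvPolynomial (Fin n) k →ₐ[k] B) (hg : (g : MvPolynomial (Fin n) k →+* B).Etale)
    (m : Ideal B) [m.IsMaximal] (hm : Function.Surjective (algebraMap k (B ⧸ m))) :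
    IsDomain (Localization.AtPrime m) ∧ UniqueFactorizationMonoid (Localization.AtPrime m) := by
  classical
  choose α hα using fun i => hm (Ideal.Quotient.mk m (g (MvPolynomial.X i)))
  let g' : MvPolynomial (Fin n) k →ₐ[k] B := g.comp (translate α).toAlgHom
  have hg' : (g' : MvPolynomial (Fin n) k →+* B).Etale := by
    have h1 : ((translate α).toRingEquiv : MvPolynomial (Fin n) k →+* MvPolynomial (Fin n) k).Etale :=
      RingHom.Etale.of_bijective (translate α).bijective
    exact @Algebra.Etale.comp (MvPolynomial (Fin n) k) (MvPolynomial (Fin n) k) B _ _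
      (RingHom.toAlgebra ((translate α).toRingEquiv : MvPolynomial (Fin n) k →+* MvPolynomial (Fin n) k))
      _ (RingHom.toAlgebra (g' : MvPolynomial (Fin n) k →+* B))
      (RingHom.toAlgebra (g : MvPolynomial (Fin n) k →+* B))
      (@IsScalarTower.of_algebraMap_eq (MvPolynomial (Fin n) k) (MvPolynomial (Fin n) k) B _ _ _
        (RingHom.toAlgebra ((translate α).toRingEquiv : MvPolynomial (Fin n) k →+* MvPolynomial (Fin n) k))
        (RingHom.toAlgebra (g : MvPolynomial (Fin n) k →+* B))
        (RingHom.toAlgebra (g' : MvPolynomial (Fin n) k →+* B)) fun x => rfl) h1 hg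
  have hg'X : ∀ i, g' (MvPolynomial.X i) ∈ m := by
    intro i
    have : g' (MvPolynomial.X i) = g (MvPolynomial.X i) - algebraMap k B (α i) := by
      simp [g', translate]
    rw [this, ← Ideal.Quotient.eq, ← hα i]
    rfl
  let φ : MvPolynomial (Fin n) k →+* B := g'
  let : Algebra (MvPolynomial (Fin n) k) B := φ.toAlgebra
  have hE : Algebra.Etale (MvPolynomial (Fin n) k) B := hg'
  have : IsScalarTower k (MvPolynomial (Fin n) k) B :=
    IsScalarTower.of_algebraMap_eq fun x => (g'.commutes x).symm
  let I : Ideal (MvPowerSeries (Fin n) k) := Ideal.span (Set.range X)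
  -- residue map
  let κ := Ideal.Quotient.mk m
  have hbij : Function.Bijective (algebraMap k (B ⧸ m)) := ⟨(algebraMap k (B ⧸ m)).injective, hm⟩
  let e : k ≃+* (B ⧸ m) := RingEquiv.ofBijective _ hbij
  let res : B →+* k := (e.symm : (B ⧸ m) →+* k).comp κ
  have hres : ∀ c : k, res (algebraMap k B c) = c := by
    intro c
    apply e.injective
    simp [res, κ]
    rfl
  have hresm : ∀ b : B, res b = 0 ↔ b ∈ m := by
    intro b
    simp [res, κ, Ideal.Quotient.eq_zero_iff_mem]
  let f₀ : B →+* (MvPowerSeries (Fin n) k ⧸ I) :=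
    ((Ideal.Quotient.mk I).comp (C (σ := Fin n) (R := k))).comp res
  have hf₀ : ∀ p : MvPolynomial (Fin n) k,
      f₀ (algebraMap (MvPolynomial (Fin n) k) B p) = algebraMap _ _ p := by
    intro p
    have : f₀.comp (algebraMap (MvPolynomial (Fin n) k) B) =
        algebraMap (MvPolynomial (Fin n) k) (MvPowerSeries (Fin n) k ⧸ I) := by
      apply MvPolynomial.ringHom_ext
      · intro c
        have h1 : algebraMap (MvPolynomial (Fin n) k) B (MvPolynomial.C c) = algebraMap k B c :=
          g'.commutes c
        simp only [RingHom.comp_apply, h1, f₀, hres]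
        rw [← MvPolynomial.coe_C]
        rfl
      · intro i
        have h1 : res (algebraMap (MvPolynomial (Fin n) k) B (MvPolynomial.X i)) = 0 :=
          (hresm _).mpr (hg'X i)
        simp only [RingHom.comp_apply, f₀, h1, map_zero]
        symm
        have h2 : algebraMap (MvPolynomial (Fin n) k) (MvPowerSeries (Fin n) k ⧸ I)
            (MvPolynomial.X i) = Ideal.Quotient.mk I (X i) := by
          rw [← MvPolynomial.coe_X]; rfl
        rw [h2, Ideal.Quotient.eq_zero_iff_mem]
        exact Ideal.subset_span ⟨i, rfl⟩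
    exact congrArg (fun h => h p) this
  let f : B →ₐ[MvPolynomial (Fin n) k] (MvPowerSeries (Fin n) k ⧸ I) := ⟨f₀, hf₀⟩
  obtain ⟨ψ, hψ⟩ := Algebra.FormallySmooth.exists_mkₐ_comp_eq_of_isAdicComplete f
  have hψc : ∀ b : B, constantCoeff (ψ b) = res b := by
    intro b
    have h1 : Ideal.Quotient.mk I (ψ b) = Ideal.Quotient.mk I (C (res b)) :=
      congrArg (fun h => h b) hψ
    rw [Ideal.Quotient.eq] at h1
    have h2 : I ≤ RingHom.ker (constantCoeff (σ := Fin n) (R := k)) := by
      rw [Ideal.span_le]
      rintro _ ⟨j, rfl⟩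
      simp
    have h3 := h2 h1
    rw [RingHom.mem_ker, map_sub, sub_eq_zero, constantCoeff_C] at h3
    exact h3
  let : Algebra B (MvPowerSeries (Fin n) k) := (ψ : B →+* MvPowerSeries (Fin n) k).toAlgebra
  have : IsScalarTower (MvPolynomial (Fin n) k) B (MvPowerSeries (Fin n) k) :=
    IsScalarTower.of_algebraMap_eq fun x => (ψ.commutes x).symm
  have hflatB : Module.Flat B (MvPowerSeries (Fin n) k) :=
    Algebra.FormallyUnramified.flat_of_restrictScalars (MvPolynomial (Fin n) k) B _
  have hunit : ∀ y : m.primeCompl, IsUnit ((ψ : B →+* MvPowerSeries (Fin n) k) y) := by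
    intro y
    rw [isUnit_iff_constantCoeff, isUnit_iff_ne_zero]
    intro h0
    exact y.2 ((hresm _).mp ((hψc y).symm.trans h0))
  let ψ' : Localization.AtPrime m →+* MvPowerSeries (Fin n) k := IsLocalization.lift hunit
  let : Algebra (Localization.AtPrime m) (MvPowerSeries (Fin n) k) := ψ'.toAlgebra
  have : IsScalarTower B (Localization.AtPrime m) (MvPowerSeries (Fin n) k) :=
    IsScalarTower.of_algebraMap_eq fun x => (IsLocalization.lift_eq hunit x).symm
  have hflat : Module.Flat (Localization.AtPrime m) (MvPowerSeries (Fin n) k) :=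
    (Module.flat_iff_of_isLocalization _ m.primeCompl _).mpr hflatB
  have hlocal : IsLocalHom (algebraMap (Localization.AtPrime m) (MvPowerSeries (Fin n) k)) := by
    refine ⟨fun x hx => ?_⟩
    obtain ⟨b, s, rfl⟩ := IsLocalization.exists_mk'_eq m.primeCompl x
    rw [IsLocalization.AtPrime.isUnit_mk'_iff]
    intro hb
    have h1 : algebraMap (Localization.AtPrime m) (MvPowerSeries (Fin n) k)
        (IsLocalization.mk' _ b s) * ψ (s : B) = ψ b := by
      have := congrArg ψ' (IsLocalization.mk'_spec (Localization.AtPrime m) b s)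
      rw [map_mul] at this
      have h2 : ∀ c : B, ψ' (algebraMap B (Localization.AtPrime m) c) = ψ c :=
        fun c => IsLocalization.lift_eq hunit c
      rw [h2, h2] at this
      exact this
    have h2 : IsUnit (ψ b) := by
      rw [← h1]
      exact hx.mul (hunit s)
    rw [isUnit_iff_constantCoeff, hψc, isUnit_iff_ne_zero] at h2
    exact h2 ((hresm b).mpr hb)
  have : Module.FaithfullyFlat (Localization.AtPrime m) (MvPowerSeries (Fin n) k) :=
    Module.FaithfullyFlat.of_flat_of_isLocalHom
  have : IsDomain (MvPowerSeries (Fin n) k) := NoZeroDivisors.to_isDomain _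
  have : UniqueFactorizationMonoid (MvPowerSeries (Fin n) k) := ufd_mvPowerSeries n
  have hdom : IsDomain (Localization.AtPrime m) :=
    isDomain_of_faithfullyFlat (S := MvPowerSeries (Fin n) k)
  have : IsNoetherianRing B := Algebra.FiniteType.isNoetherianRing (MvPolynomial (Fin n) k) B
  have : IsNoetherianRing (Localization.AtPrime m) :=
    IsLocalization.isNoetherianRing m.primeCompl _ inferInstance
  exact ⟨hdom, ufd_of_faithfullyFlat (S := MvPowerSeries (Fin n) k)⟩

end Smooth

end Fermat.Agent.S26ufd
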